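/-
S55 / 31-FIRST-INEQ (helper16): choice of a finite set of primes `T ⊇ S` such that the
`T`-class group of a number field is trivial, in elementwise form: every finitely supported
vector of exponents is, away from `T`, the valuation vector of an element of `Fˣ`.
Mathlib only.
-/
import Mathlib

namespace Fermat.Agent.S55.FirstIneq16.Class

open IsDedekindDomain NumberField FractionalIdeal nonZeroDivisors

section Dedekind

variable {R : Type*} [CommRing R] [IsDedekindDomain R] {K : Type*} [Field K] [Algebra R K]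
  [IsFractionRing R K] (v : HeightOneSpectrum R)

/-- The adic valuation of a nonzero element is `exp` of minus the `v`-adic count of the
principal fractional ideal it generates. -/
theorem valuation_eq_exp_neg_count (x : K) (hx : x ≠ 0) :
    v.valuation K x = WithZero.exp (-(count K v (spanSingleton R⁰ x))) := by
  obtain ⟨n, d, hd, rfl⟩ := IsFractionRing.div_surjective (A := R) x
  have hd0 : d ≠ 0 := nonZeroDivisors.ne_zero hd
  have hn0 : n ≠ 0 := by
    rintro rfl
    simp at hx
  have hI : spanSingleton R⁰ (algebraMap R K n / algebraMap R K d) =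
      spanSingleton R⁰ ((algebraMap R K) d)⁻¹ * ↑(Ideal.span {n} : Ideal R) := by
    rw [coeIdeal_span_singleton, spanSingleton_mul_spanSingleton, div_eq_inv_mul]
  have hne : spanSingleton R⁰ (algebraMap R K n / algebraMap R K d) ≠ 0 :=
    spanSingleton_ne_zero_iff.mpr hx
  rw [count_well_defined K v hne hI, map_div₀, HeightOneSpectrum.valuation_of_algebraMap,
    HeightOneSpectrum.valuation_of_algebraMap,
    v.intValuation_if_neg hn0, v.intValuation_if_neg hd0, ← WithZero.exp_sub]
  congr 1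
  ring

end Dedekind

section NumberField

variable (F : Type*) [Field F] [NumberField F]

/-- Every height one prime of `𝓞 F` contains a rational prime. -/
theorem exists_prime_mem (v : HeightOneSpectrum (𝓞 F)) :
    ∃ ℓ : Nat.Primes, (((ℓ : ℕ) : 𝓞 F)) ∈ v.asIdeal := by
  have hmem : ((Ideal.absNorm v.asIdeal : ℕ) : 𝓞 F) ∈ v.asIdeal := by
    have := Ideal.absNorm_mem v.asIdeal
    exact_mod_cast this
  have hne1 : Ideal.absNorm v.asIdeal ≠ 1 := by
    rw [Ne, Ideal.absNorm_eq_one_iff]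
    exact v.isPrime.ne_top
  have hne0 : Ideal.absNorm v.asIdeal ≠ 0 := by
    rw [Ne, Ideal.absNorm_eq_zero_iff]
    exact v.ne_bot
  rw [← Nat.prod_factorization_pow_eq_self hne0, Finsupp.prod, Nat.cast_prod,
    v.isPrime.prod_mem_iff] at hmem
  obtain ⟨p, hp, hpm⟩ := hmem
  rw [Nat.cast_pow] at hpm
  have hpp : p.Prime := Nat.prime_of_mem_primeFactors (by simpa using hp)
  exact ⟨⟨p, hpp⟩, v.isPrime.mem_of_pow_mem _ hpm⟩

/-- **Choice of `T` with trivial `T`-class group** (elementwise form). For every finite set `S`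
of rational primes there is a finite `T ⊇ S` such that every finitely supported exponent vector
on the primes of `𝓞 F` is realised, at all primes not above `T`, by an element of `Fˣ`. -/
theorem exists_finset_trivial_class (S : Finset Nat.Primes) :
    ∃ T : Finset Nat.Primes, S ⊆ T ∧ ∀ n : HeightOneSpectrum (𝓞 F) →₀ ℤ, ∃ x : Fˣ,
      ∀ P : HeightOneSpectrum (𝓞 F), (∀ ℓ ∈ T, (((ℓ : ℕ) : 𝓞 F)) ∉ P.asIdeal) →
        P.valuation F (x : F) = WithZero.exp (-(n P)) := by
  classical
  -- representatives of the ideal classes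
  have hsurj : ∀ c : ClassGroup (𝓞 F), ∃ J : (FractionalIdeal (𝓞 F)⁰ F)ˣ,
      ClassGroup.mk F J = c := by
    intro c
    refine ClassGroup.induction (K := F) (P := fun c => ∃ J : (FractionalIdeal (𝓞 F)⁰ F)ˣ,
      ClassGroup.mk F J = c) (fun I => ⟨I, rfl⟩) c
  choose J hJ using hsurj
  -- the finitely many primes occurring in the representatives
  have hfin : ∀ c : ClassGroup (𝓞 F),
      {v : HeightOneSpectrum (𝓞 F) | count F v (J c : FractionalIdeal (𝓞 F)⁰ F) ≠ 0}.Finite :=
    fun c => FractionalIdeal.finite_factors (J c : FractionalIdeal (𝓞 F)⁰ F)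
  let B : Finset (HeightOneSpectrum (𝓞 F)) :=
    Finset.univ.biUnion fun c : ClassGroup (𝓞 F) => (hfin c).toFinset
  choose ℓof hℓof using exists_prime_mem F
  refine ⟨S ∪ B.image ℓof, Finset.subset_union_left, fun n => ?_⟩
  -- the fractional ideal with the prescribed exponents
  set 𝔞 : FractionalIdeal (𝓞 F)⁰ F :=
    n.prod (fun v k => (v.asIdeal : FractionalIdeal (𝓞 F)⁰ F) ^ k) with h𝔞
  have h𝔞0 : 𝔞 ≠ 0 := by
    rw [h𝔞, Finsupp.prod, Finset.prod_ne_zero_iff]
    exact fun v _ => zpow_ne_zero _ (coeIdeal_ne_zero.mpr v.ne_bot)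
  set c := ClassGroup.mk F (Units.mk0 𝔞 h𝔞0) with hc
  have hone : ClassGroup.mk F (Units.mk0 𝔞 h𝔞0 * (J c)⁻¹) = 1 := by
    rw [map_mul, map_inv, hJ c, ← hc, mul_inv_cancel]
  rw [ClassGroup.mk_eq_one_iff, FractionalIdeal.isPrincipal_iff] at hone
  obtain ⟨x, hx⟩ := hone
  have hx' : 𝔞 * ((J c)⁻¹ : (FractionalIdeal (𝓞 F)⁰ F)ˣ) = spanSingleton (𝓞 F)⁰ x := by
    simpa using hx
  have hx0 : x ≠ 0 := by
    rintro rfl
    rw [spanSingleton_zero] at hx'
    exact (mul_ne_zero h𝔞0 (Units.ne_zero _)) hx'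
  have h𝔞eq : 𝔞 = spanSingleton (𝓞 F)⁰ x * (J c : FractionalIdeal (𝓞 F)⁰ F) := by
    rw [← hx', mul_assoc, ← Units.val_mul, inv_mul_cancel, Units.val_one, mul_one]
  refine ⟨Units.mk0 x hx0, fun P hP => ?_⟩
  have hPB : P ∉ B := by
    intro hPB
    exact hP (ℓof P) (Finset.mem_union_right _ (Finset.mem_image_of_mem _ hPB)) (hℓof P)
  have hcount0 : count F P (J c : FractionalIdeal (𝓞 F)⁰ F) = 0 := by
    by_contra hne
    apply hPB
    rw [Finset.mem_biUnion]
    exact ⟨c, Finset.mem_univ _, (hfin c).mem_toFinset.mpr hne⟩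
  have hcount : count F P (spanSingleton (𝓞 F)⁰ x) = n P := by
    have h1 : count F P 𝔞 = n P := count_finsuppProd F P n
    rw [h𝔞eq, count_mul F P (spanSingleton_ne_zero_iff.mpr hx0) (Units.ne_zero _), hcount0,
      add_zero] at h1
    exact h1
  rw [Units.val_mk0, valuation_eq_exp_neg_count P x hx0, hcount]

/-- Monotone form: enlarging `T` keeps the property (the hypothesis on `P` only gets stronger). -/
theorem forall_superset_trivial_class {T : Finset Nat.Primes}
    (hT : ∀ n : HeightOneSpectrum (𝓞 F) →₀ ℤ, ∃ x : Fˣ,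
      ∀ P : HeightOneSpectrum (𝓞 F), (∀ ℓ ∈ T, (((ℓ : ℕ) : 𝓞 F)) ∉ P.asIdeal) →
        P.valuation F (x : F) = WithZero.exp (-(n P)))
    {T' : Finset Nat.Primes} (hTT' : T ⊆ T') (n : HeightOneSpectrum (𝓞 F) →₀ ℤ) :
    ∃ x : Fˣ, ∀ P : HeightOneSpectrum (𝓞 F), (∀ ℓ ∈ T', (((ℓ : ℕ) : 𝓞 F)) ∉ P.asIdeal) →
      P.valuation F (x : F) = WithZero.exp (-(n P)) := by
  obtain ⟨x, hx⟩ := hT n
  exact ⟨x, fun P hP => hx P fun ℓ hℓ => hP ℓ (hTT' hℓ)⟩

end NumberField

end Fermat.Agent.S55.FirstIneq16.Class
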