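/-
S55 / 31-FIRST-INEQ (helper16): the exact exponent of a multiplicative real "norm" at an
unramified prime. If `N : K →*₀ ℝ` has the same unit ball as the `v`-adic valuation, takes values
in `ℓ ^ ℤ`, and `N ℓ = ℓ⁻¹`, then `N x = ℓ ^ (-ord_v x)`. Dictionary independent, Mathlib only.
-/
import Mathlib

namespace Fermat.Agent.S55.FirstIneq16.Exponent

open IsDedekindDomain

variable {R : Type*} [CommRing R] [IsDedekindDomain R] {K : Type*} [Field K] [Algebra R K]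
  [IsFractionRing R K] (v : HeightOneSpectrum R) (N : K →*₀ ℝ)

/-- If `N` and the `v`-adic valuation have the same unit ball, then `N x = 1` on `v`-adic
units. -/
theorem eq_one_of_valuation_eq_one (hN : ∀ x, 0 ≤ N x)
    (hle : ∀ x : K, N x ≤ 1 ↔ v.valuation K x ≤ 1) {y : K}
    (hy : v.valuation K y = 1) : N y = 1 := by
  have hy0 : y ≠ 0 := by
    rintro rfl
    simp at hy
  have h1 : N y ≤ 1 := (hle y).mpr hy.le
  have h2 : N y⁻¹ ≤ 1 := (hle y⁻¹).mpr (by rw [map_inv₀, hy, inv_one])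
  have hmul : N y * N y⁻¹ = 1 := by rw [← map_mul, mul_inv_cancel₀ hy0, map_one]
  have hpos : 0 < N y := by
    rcases (hN y).lt_or_eq with h | h
    · exact h
    · rw [← h, zero_mul] at hmul
      exact absurd hmul zero_ne_one
  by_contra hne
  have hlt : N y < 1 := lt_of_le_of_ne h1 hne
  have : N y * N y⁻¹ < 1 := by
    calc N y * N y⁻¹ ≤ N y * 1 := mul_le_mul_of_nonneg_left h2 hpos.le
      _ = N y := mul_one _
      _ < 1 := hlt
  exact absurd hmul this.ne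

variable (ℓ : ℕ)

/-- **Exact exponent at an unramified prime.** -/
theorem norm_eq_zpow_of_valuation (hℓ1 : 1 < ℓ) (hN : ∀ x, 0 ≤ N x)
    (hle : ∀ x : K, N x ≤ 1 ↔ v.valuation K x ≤ 1)
    (hℓ : N (ℓ : K) = (ℓ : ℝ)⁻¹)
    (hval : ∀ x : K, x ≠ 0 → ∃ m : ℤ, N x = (ℓ : ℝ) ^ (-m))
    (x : K) (n : ℤ) (h : v.valuation K x = WithZero.exp (-n)) :
    N x = (ℓ : ℝ) ^ (-n) := by
  have hℓR : (1 : ℝ) < (ℓ : ℝ) := by exact_mod_cast hℓ1
  have hℓ0 : (ℓ : ℝ) ≠ 0 := by positivity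
  obtain ⟨π, hπ⟩ := v.valuation_exists_uniformizer K
  have hπ0 : π ≠ 0 := by
    rintro rfl
    rw [map_zero] at hπ
    exact WithZero.exp_ne_zero hπ.symm
  obtain ⟨e, he⟩ := hval π hπ0
  -- every element is a unit times a power of `π`
  have key : ∀ (z : K) (k : ℤ), v.valuation K z = WithZero.exp (-k) →
      N z = (ℓ : ℝ) ^ (-(e * k)) := by
    intro z k hz
    have hunit : v.valuation K (z * π ^ (-k)) = 1 := by
      rw [map_mul, map_zpow₀, hz, hπ, ← WithZero.exp_zsmul, ← WithZero.exp_add]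
      simp
    have h1 := eq_one_of_valuation_eq_one v N hN hle hunit
    rw [map_mul, map_zpow₀, he] at h1
    have hne : ((ℓ : ℝ) ^ (-e)) ^ (-k) ≠ 0 := zpow_ne_zero _ (zpow_ne_zero _ hℓ0)
    have : N z = (((ℓ : ℝ) ^ (-e)) ^ (-k))⁻¹ := eq_inv_of_mul_eq_one_left h1
    rw [this, ← zpow_mul, ← zpow_neg]
    congr 1
    ring
  -- apply to `ℓ` itself to get `e = 1`
  have hℓK : (ℓ : K) ≠ 0 := by
    intro h0
    rw [h0, map_zero] at hℓ
    exact (inv_ne_zero hℓ0) hℓ.symm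
  have hvℓ : v.valuation K (ℓ : K) ≠ 0 := (Valuation.ne_zero_iff _).mpr hℓK
  have hvℓ' : v.valuation K (ℓ : K) = WithZero.exp (-(-(WithZero.log (v.valuation K (ℓ : K))))) := by
    rw [neg_neg, WithZero.exp_log hvℓ]
  have h2 := key _ _ hvℓ'
  rw [hℓ, ← zpow_neg_one] at h2
  have h3 : (-1 : ℤ) = -(e * -(WithZero.log (v.valuation K (ℓ : K)))) :=
    zpow_right_injective₀ (by positivity) hℓR.ne' h2
  -- `e` is positive since `N π < 1`
  have hπlt : N π < 1 := by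
    have hle1 : N π ≤ 1 := (hle π).mpr (by rw [hπ]; exact WithZero.exp_le_exp.mpr (by norm_num) |>.trans_eq WithZero.exp_zero)
    refine lt_of_le_of_ne hle1 fun h1 => ?_
    have : N π⁻¹ ≤ 1 := by rw [map_inv₀, h1, inv_one]
    rw [hle, map_inv₀, hπ, ← WithZero.exp_neg, neg_neg] at this
    have : ¬ (WithZero.exp (1 : ℤ) ≤ (1 : WithZero (Multiplicative ℤ))) := by
      rw [← WithZero.exp_zero, WithZero.exp_le_exp]
      norm_num
    contradiction
  have hepos : 0 < e := by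
    rw [he] at hπlt
    by_contra hneg
    push Not at hneg
    have : (1 : ℝ) ≤ (ℓ : ℝ) ^ (-e) := one_le_zpow₀ hℓR.le (by omega)
    linarith
  have he1 : e = 1 := by
    have hmul : e * WithZero.log (v.valuation K (ℓ : K)) = -1 := by
      have := h3
      ring_nf at this ⊢
      linarith
    have hdvd : e ∣ 1 := ⟨-WithZero.log (v.valuation K (ℓ : K)), by rw [mul_neg, hmul, neg_neg]⟩
    exact Int.eq_one_of_dvd_one hepos.le hdvd
  have := key x n h
  rwa [he1, one_mul] at this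

/-- Under the hypotheses of `norm_eq_zpow_of_valuation`, `ℓ` is a uniformizer at `v`. -/
theorem valuation_natCast_eq (hℓ1 : 1 < ℓ) (hN : ∀ x, 0 ≤ N x)
    (hle : ∀ x : K, N x ≤ 1 ↔ v.valuation K x ≤ 1)
    (hℓ : N (ℓ : K) = (ℓ : ℝ)⁻¹)
    (hval : ∀ x : K, x ≠ 0 → ∃ m : ℤ, N x = (ℓ : ℝ) ^ (-m)) :
    v.valuation K (ℓ : K) = WithZero.exp (-1 : ℤ) := by
  have hℓR : (1 : ℝ) < (ℓ : ℝ) := by exact_mod_cast hℓ1
  have hℓ0 : (ℓ : ℝ) ≠ 0 := by positivity
  have hℓK : (ℓ : K) ≠ 0 := by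
    intro h0
    rw [h0, map_zero] at hℓ
    exact (inv_ne_zero hℓ0) hℓ.symm
  have hvℓ : v.valuation K (ℓ : K) ≠ 0 := (Valuation.ne_zero_iff _).mpr hℓK
  have hvℓ' : v.valuation K (ℓ : K) =
      WithZero.exp (-(-(WithZero.log (v.valuation K (ℓ : K))))) := by
    rw [neg_neg, WithZero.exp_log hvℓ]
  have h2 := norm_eq_zpow_of_valuation v N ℓ hℓ1 hN hle hℓ hval _ _ hvℓ'
  rw [hℓ, ← zpow_neg_one] at h2
  have h3 : (-1 : ℤ) = -(-(WithZero.log (v.valuation K (ℓ : K)))) :=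
    zpow_right_injective₀ (by positivity) hℓR.ne' h2
  rw [hvℓ', ← h3]

end Fermat.Agent.S55.FirstIneq16.Exponent
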