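/-
S55 / 31-FIRST-INEQ (helper16): the bridge between the class-group step and helper73's place-free
coinduced idele model.  For a finite set of primes `T` with trivial `T`-class group
(`FirstIneq16.Class.exists_finset_trivial_class`) and `L` unramified outside `T`
(helper44's `IsUnrAt`), every finitely supported family of `locHom`-invariant exponent functions
`n ℓ : Gal(L/ℚ) → ℤ` is realised outside `T` by a single `x : Lˣ`:
`‖ι_ℓ (g x)‖ = ℓ ^ (-(n ℓ g))`, i.e. `Lˣ → ⊕_{ℓ ∉ T} coind ℤ` is ONTO.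
-/
import Mathlib
import Fermat.Prelude.Def_GaloisRep_CompletionBridge
import Fermat.Agent.S55.Idele73.Basic
import Fermat.Agent.S55.IdeleVal44.Val
import Fermat.Agent.S55.PlaceDict58
import Fermat.Agent.S55.ProfinLoc80.Decomp
import Fermat.Agent.S55.FirstIneq16.Class
import Fermat.Agent.S55.FirstIneq16.Exponent

namespace Fermat.Agent.S55.FirstIneq16.Bridge

open IsDedekindDomain NumberField
open Fermat.Agent.S55.Idele73.Basic Fermat.Agent.S55.IdeleVal44 Fermat.Agent.S55.PlaceDict58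

/-- rational primes as `Fact`s -/
instance factPrime (ℓ : Nat.Primes) : Fact ((ℓ : ℕ)).Prime := ⟨ℓ.2⟩

section Local

variable (q : ℕ) [Fact q.Prime]

/-- `v(u) = k` iff `‖u‖ = q ^ (-k)`. -/
theorem valAdd_eq_intCast_iff (u : (PadicAlgCl q)ˣ) (k : ℤ) :
    valAdd q (Additive.ofMul u) = k ↔ ‖(u : PadicAlgCl q)‖ = (q : ℝ) ^ (-k) := by
  have hq0 : (0 : ℝ) < q := by exact_mod_cast (Fact.out : q.Prime).pos
  have hlog : Real.log (q : ℝ) ≠ 0 := (log_q_pos q).ne'
  have hpos : 0 < ‖(u : PadicAlgCl q)‖ := norm_pos_iff.mpr (Units.ne_zero _)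
  rw [valAdd_apply, toMul_ofMul]
  constructor
  · intro h
    have h1 : Real.log ‖(u : PadicAlgCl q)‖ = Real.log ((q : ℝ) ^ (-k)) := by
      rw [Real.log_zpow]
      field_simp at h
      push_cast
      linarith
    exact Real.log_injOn_pos (Set.mem_Ioi.mpr hpos) (Set.mem_Ioi.mpr (zpow_pos hq0 _)) h1
  · intro h
    rw [h, Real.log_zpow]
    push_cast
    field_simp

end Local

section Level

variable (q : ℕ) [Fact q.Prime] (L : IntermediateField ℚ Qbar) [FiniteDimensional ℚ L]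
  [Normal ℚ L]

instance numberFieldLevel : NumberField L := numberField_of_finiteDimensional L

/-- the embedding `L → ℚbar` attached to `g : Gal(L/ℚ)` -/
noncomputable def sig (g : GalL L) : L →ₐ[ℚ] Qbar := L.val.comp (g : L →ₐ[ℚ] L)

theorem nrm_sig (g : GalL L) (x : L) : nrm q L (sig L g) x = ‖iotaL q L (g x)‖ := rfl

/-- the prime of `𝓞 L` above `q` attached to the coset of `g`: `{x | ‖ι_q (g x)‖ < 1}`. -/
noncomputable def primeAt (g : GalL L) : HeightOneSpectrum (𝓞 L) := placeOf q L (sig L g)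

theorem mem_primeAt_iff (g : GalL L) (x : 𝓞 L) :
    x ∈ (primeAt q L g).asIdeal ↔ ‖iotaL q L (g (x : L))‖ < 1 := Iff.rfl

theorem norm_le_one_iff_valuation (g : GalL L) (x : L) :
    ‖iotaL q L (g x)‖ ≤ 1 ↔ (primeAt q L g).valuation L x ≤ 1 :=
  nrm_le_one_iff q L (sig L g) x

/-- the only rational prime in `primeAt q L g` is `q` -/
theorem natCast_mem_primeAt_iff (g : GalL L) {ℓ : ℕ} (hℓ : ℓ.Prime) :
    ((ℓ : 𝓞 L)) ∈ (primeAt q L g).asIdeal ↔ ℓ = q := by
  constructor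
  · intro h
    by_contra hne
    have h1 : nrm q L (sig L g) (((ℓ : 𝓞 L)) : L) < 1 := h
    have h2 : nrm q L (sig L g) ((ℓ : L)) = 1 := nrm_natCast_prime_ne q L (sig L g) hℓ hne
    have h3 : (((ℓ : 𝓞 L)) : L) = (ℓ : L) := by simp
    rw [h3, h2] at h1
    exact lt_irrefl _ h1
  · rintro rfl
    exact natCast_mem_placeOf ℓ L (sig L g)

/-- **decomposition group, hard direction**: two elements of `Gal(L/ℚ)` cutting out the same
prime above `q` differ by an element of the image of the local Galois group. -/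
theorem exists_locHom_of_primeAt_eq {g g' : GalL L} (h : primeAt q L g = primeAt q L g') :
    ∃ τ : Gq q, g' = locHom q L τ * g := by
  set σ : GalL L := g' * g⁻¹ with hσdef
  have key : ∀ y : L, ‖iotaL q L (σ.toRingEquiv y)‖ ≤ 1 ↔ ‖iotaL q L y‖ ≤ 1 := by
    intro y
    have h1 := norm_le_one_iff_valuation q L g' (g⁻¹ y)
    have h2 := norm_le_one_iff_valuation q L g (g⁻¹ y)
    rw [← h] at h1
    have h3 : g (g⁻¹ y) = y := by
      rw [← AlgEquiv.mul_apply, mul_inv_cancel, AlgEquiv.one_apply]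
    rw [h3] at h2
    have h4 : σ.toRingEquiv y = g' (g⁻¹ y) := rfl
    rw [h4, h1, h2]
  have hσ : ∀ x : L, ‖padicEmbedding q ((σ x : L) : AlgebraicClosure ℚ)‖ =
      ‖padicEmbedding q (x : AlgebraicClosure ℚ)‖ := fun x =>
    ProfinLoc80.norm_map_eq_of_unitBall q (iotaL q L) σ.toRingEquiv key x
  obtain ⟨τ, hτ⟩ := ProfinLoc80.exists_local_lift_of_norm q L σ hσ
  have hloc : locHom q L τ = σ := by
    apply AlgEquiv.ext
    intro x
    apply iotaL_injective q L
    rw [iotaL_locHom, iotaL_apply, iotaL_apply, hτ]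
  refine ⟨τ, ?_⟩
  rw [hloc, hσdef, inv_mul_cancel_right]

/-- the `q`-adic norm through `g` as a monoid-with-zero hom -/
noncomputable def normAt (g : GalL L) : L →*₀ ℝ where
  toFun x := ‖iotaL q L (g x)‖
  map_zero' := by simp
  map_one' := by simp
  map_mul' x y := by simp

theorem normAt_apply (g : GalL L) (x : L) : normAt q L g x = ‖iotaL q L (g x)‖ := rfl

/-- at a prime where `L` is unramified (helper44's `IsUnrAt`), the `q`-adic norm of every
nonzero element of `L` is an integral power of `q`. -/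
theorem exists_norm_eq_zpow (hunr : IsUnrAt q (locHom q L)) (g : GalL L) (y : L) (hy : y ≠ 0) :
    ∃ k : ℤ, ‖iotaL q L (g y)‖ = (q : ℝ) ^ (-k) := by
  have hne : iotaL q L (g y) ≠ 0 := by
    rw [Ne, map_eq_zero, map_eq_zero]
    exact hy
  obtain ⟨k, hk⟩ := hunr (Units.mk0 _ hne) (by
    intro τ hτ
    apply Units.ext
    show τ (iotaL q L (g y)) = iotaL q L (g y)
    rw [← iotaL_locHom, MonoidHom.mem_ker.mp hτ, AlgEquiv.one_apply])
  exact ⟨k, by simpa using (valAdd_eq_intCast_iff q _ k).mp hk⟩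

/-- **exact exponent in the coind model**: at an unramified prime, `‖ι_q (g x)‖ = q ^ (-ord x)`
where `ord` is the Mathlib valuation at `primeAt q L g`. -/
theorem norm_eq_zpow_of_valuation (hunr : IsUnrAt q (locHom q L)) (g : GalL L) (x : L) (n : ℤ)
    (h : (primeAt q L g).valuation L x = WithZero.exp (-n)) :
    ‖iotaL q L (g x)‖ = (q : ℝ) ^ (-n) := by
  have := Exponent.norm_eq_zpow_of_valuation (primeAt q L g) (normAt q L g) q
    (Fact.out : q.Prime).one_lt (fun x => (norm_nonneg (iotaL q L (g x)) : 0 ≤ normAt q L g x))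
    (fun x => norm_le_one_iff_valuation q L g x)
    (nrm_natCast_q q L (sig L g))
    (fun y hy => exists_norm_eq_zpow q L hunr g y hy) x n h
  exact this

end Level

section Main

variable (L : IntermediateField ℚ Qbar) [FiniteDimensional ℚ L] [Normal ℚ L]

/-- **Bridge: `Cl(𝓞_{L,T}) = 1` in the coind model.** If `T` has the class-group property of
`Class.exists_finset_trivial_class` and `L` is unramified outside `T`, then every finitely
supported family of `locHom`-invariant functions `n ℓ : Gal(L/ℚ) → ℤ` is, outside `T`, the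
valuation vector of one `x : Lˣ`. -/
theorem exists_unit_norm_eq (T : Finset Nat.Primes)
    (hT : ∀ n : HeightOneSpectrum (𝓞 L) →₀ ℤ, ∃ x : Lˣ, ∀ P : HeightOneSpectrum (𝓞 L),
      (∀ ℓ ∈ T, (((ℓ : ℕ) : 𝓞 L)) ∉ P.asIdeal) → P.valuation L (x : L) = WithZero.exp (-(n P)))
    (hunr : ∀ ℓ : Nat.Primes, ℓ ∉ T → IsUnrAt (ℓ : ℕ) (locHom (ℓ : ℕ) L))
    (n : Nat.Primes → GalL L → ℤ) (hfin : {ℓ | n ℓ ≠ 0}.Finite)
    (hinv : ∀ (ℓ : Nat.Primes) (τ : Gq (ℓ : ℕ)) (g : GalL L),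
      n ℓ (locHom (ℓ : ℕ) L τ * g) = n ℓ g) :
    ∃ x : Lˣ, ∀ ℓ : Nat.Primes, ℓ ∉ T → ∀ g : GalL L,
      ‖iotaL (ℓ : ℕ) L (g (x : L))‖ = ((ℓ : ℕ) : ℝ) ^ (-(n ℓ g)) := by
  classical
  let _ : Fintype (GalL L) := AlgEquiv.fintype ℚ L
  -- the exponent function on primes
  let m : HeightOneSpectrum (𝓞 L) → ℤ := fun P =>
    if h : ∃ (ℓ : Nat.Primes) (g : GalL L), primeAt (ℓ : ℕ) L g = P then
      n h.choose h.choose_spec.choose else 0
  have hm_supp : (Function.support m).Finite := by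
    have hsub : Function.support m ⊆
        (fun p : Nat.Primes × GalL L => primeAt (p.1 : ℕ) L p.2) ''
          ((hfin.toFinset ×ˢ (Finset.univ : Finset (GalL L)) : Finset (Nat.Primes × GalL L)) :
            Set (Nat.Primes × GalL L)) := by
      intro P hP
      rw [Function.mem_support] at hP
      by_cases h : ∃ (ℓ : Nat.Primes) (g : GalL L), primeAt (ℓ : ℕ) L g = P
      · have hmP : m P = n h.choose h.choose_spec.choose := dif_pos h
        refine ⟨(h.choose, h.choose_spec.choose), ?_, h.choose_spec.choose_spec⟩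
        rw [Finset.coe_product, Set.mem_prod]
        refine ⟨?_, by simp⟩
        rw [Finset.mem_coe, Set.Finite.mem_toFinset]
        show n _ ≠ 0
        intro h0
        apply hP
        rw [hmP, h0]
        rfl
      · exact absurd (dif_neg h) hP
    exact (Set.Finite.image _ (Finset.finite_toSet _)).subset hsub
  obtain ⟨x, hx⟩ := hT (Finsupp.ofSupportFinite m hm_supp)
  refine ⟨x, fun ℓ hℓT g => ?_⟩
  -- the prime attached to `(ℓ, g)` is not above `T`
  have hPT : ∀ t ∈ T, (((t : ℕ) : 𝓞 L)) ∉ (primeAt (ℓ : ℕ) L g).asIdeal := by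
    intro t ht hmem
    have := (natCast_mem_primeAt_iff (ℓ : ℕ) L g t.2).mp hmem
    have htl : t = ℓ := Subtype.ext this
    exact hℓT (htl ▸ ht)
  have hval := hx (primeAt (ℓ : ℕ) L g) hPT
  -- compute `m` at this prime
  have hex : ∃ (ℓ' : Nat.Primes) (g' : GalL L), primeAt (ℓ' : ℕ) L g' = primeAt (ℓ : ℕ) L g :=
    ⟨ℓ, g, rfl⟩
  have hmP : m (primeAt (ℓ : ℕ) L g) = n ℓ g := by
    obtain ⟨ℓ₁, g₁, hspec, hm1⟩ : ∃ (ℓ₁ : Nat.Primes) (g₁ : GalL L),
        primeAt (ℓ₁ : ℕ) L g₁ = primeAt (ℓ : ℕ) L g ∧ m (primeAt (ℓ : ℕ) L g) = n ℓ₁ g₁ :=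
      ⟨hex.choose, hex.choose_spec.choose, hex.choose_spec.choose_spec, dif_pos hex⟩
    rw [hm1]
    -- same residue characteristic
    have hℓ' : ℓ₁ = ℓ := by
      have hmem : (((ℓ₁ : ℕ) : 𝓞 L)) ∈ (primeAt (ℓ₁ : ℕ) L g₁).asIdeal :=
        (natCast_mem_primeAt_iff (ℓ₁ : ℕ) L _ ℓ₁.2).mpr rfl
      rw [hspec] at hmem
      exact Subtype.ext ((natCast_mem_primeAt_iff (ℓ : ℕ) L g ℓ₁.2).mp hmem)
    subst hℓ'
    obtain ⟨τ, hτ⟩ := exists_locHom_of_primeAt_eq (ℓ₁ : ℕ) L hspec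
    rw [hτ, hinv]
  have hval' : (primeAt (ℓ : ℕ) L g).valuation L (x : L) = WithZero.exp (-(n ℓ g)) := by
    rw [hval]
    show WithZero.exp (-(m (primeAt (ℓ : ℕ) L g))) = _
    rw [hmP]
  exact norm_eq_zpow_of_valuation (ℓ : ℕ) L (hunr ℓ hℓT) g (x : L) (n ℓ g) hval'

/-- the same in helper44's `valAdd` vocabulary and on helper73's diagonal map. -/
theorem exists_unit_valAdd_diag_eq (T : Finset Nat.Primes)
    (hT : ∀ n : HeightOneSpectrum (𝓞 L) →₀ ℤ, ∃ x : Lˣ, ∀ P : HeightOneSpectrum (𝓞 L),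
      (∀ ℓ ∈ T, (((ℓ : ℕ) : 𝓞 L)) ∉ P.asIdeal) → P.valuation L (x : L) = WithZero.exp (-(n P)))
    (hunr : ∀ ℓ : Nat.Primes, ℓ ∉ T → IsUnrAt (ℓ : ℕ) (locHom (ℓ : ℕ) L))
    (n : Nat.Primes → GalL L → ℤ) (hfin : {ℓ | n ℓ ≠ 0}.Finite)
    (hinv : ∀ (ℓ : Nat.Primes) (τ : Gq (ℓ : ℕ)) (g : GalL L),
      n ℓ (locHom (ℓ : ℕ) L τ * g) = n ℓ g) :
    ∃ x : Lx L, ∀ ℓ : Nat.Primes, ℓ ∉ T → ∀ g : GalL L,
      valAdd (ℓ : ℕ) (Rep.toAdditive (((diag (ℓ : ℕ) L).hom x).1 g)) = n ℓ g := by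
  obtain ⟨x, hx⟩ := exists_unit_norm_eq L T hT hunr n hfin hinv
  refine ⟨Additive.ofMul x, fun ℓ hℓ g => ?_⟩
  have h1 := hx ℓ hℓ g
  have hne : iotaL (ℓ : ℕ) L (g (x : L)) ≠ 0 := by
    rw [Ne, map_eq_zero, map_eq_zero]
    exact Units.ne_zero x
  have h2 : (Rep.toAdditive (((diag (ℓ : ℕ) L).hom (Additive.ofMul x : Lx L)).1 g)) =
      Additive.ofMul (Units.mk0 _ hne) := by
    apply Additive.toMul.injective
    apply Units.ext
    rfl
  rw [h2, valAdd_eq_intCast_iff]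
  exact h1

end Main

end Fermat.Agent.S55.FirstIneq16.Bridge
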