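/-
S55 / 31-FIRST-INEQ (helper16): the RELATIVE bridge.  For a level `L` (finite Galois over `ℚ`)
and ANY subgroup `N ≤ Gal(L/ℚ)` (the layer field `L^N` need not be Galois over `ℚ`), the class
group step in helper73's coinduced model:  every finitely supported family of exponent functions
`n ℓ : Gal(L/ℚ) → ℤ`, left-invariant under the image of the local Galois groups and
right-invariant under `N`, is realised outside a finite set `T` by ONE element `x ∈ (L^N)ˣ`:
`‖ι_ℓ (g x)‖ = ℓ ^ (-(n ℓ g))`.  I.e. `(Lˣ)^N → (⊕_{ℓ ∉ T} coind ℤ)^N` is ONTO, with one `T` for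
all `N`.
-/
import Mathlib
import Fermat.Agent.S55.FirstIneq16.Bridge

namespace Fermat.Agent.S55.FirstIneq16.RelBridge

open IsDedekindDomain NumberField
open scoped Pointwise
open Fermat.Agent.S55.Idele73.Basic Fermat.Agent.S55.IdeleVal44 Fermat.Agent.S55.PlaceDict58
open Fermat.Agent.S55.FirstIneq16 Fermat.Agent.S55.FirstIneq16.Bridge

variable (L : IntermediateField ℚ Qbar) [FiniteDimensional ℚ L] [Normal ℚ L]
variable (N : Subgroup (GalL L))

instance isGaloisLevel : IsGalois ℚ L := ⟨⟩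

/-- the fixed field of `N` (inside `L`) -/
noncomputable abbrev layerField : IntermediateField ℚ L := FixedPoints.intermediateField N

instance isGaloisGroupLayer : IsGaloisGroup N (𝓞 (layerField L N)) (𝓞 L) :=
  IsGaloisGroup.of_isFractionRing N (𝓞 (layerField L N)) (𝓞 L) (layerField L N) L

omit [FiniteDimensional ℚ L] [Normal ℚ L] in
theorem mem_layerField_iff (x : L) : x ∈ layerField L N ↔ ∀ ν ∈ N, ν x = x := by
  constructor
  · intro h ν hν
    exact h ⟨ν, hν⟩
  · intro h ν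
    exact h ν.1 ν.2

section Prime

variable (q : ℕ) [Fact q.Prime]

/-- transitivity of `N` on the primes of `L` above a prime of the layer field, in `primeAt`
form. -/
theorem exists_mem_primeAt_eq {g g' : GalL L}
    (h : (primeAt q L g).asIdeal.under (𝓞 (layerField L N)) =
      (primeAt q L g').asIdeal.under (𝓞 (layerField L N))) :
    ∃ ν ∈ N, primeAt q L g' = primeAt q L (g * ν) := by
  have := (primeAt q L g).isPrime
  have := (primeAt q L g').isPrime
  obtain ⟨ν, hν⟩ := Algebra.IsInvariant.exists_smul_of_under_eq (𝓞 (layerField L N)) (𝓞 L) N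
    (primeAt q L g).asIdeal (primeAt q L g').asIdeal h
  refine ⟨(ν⁻¹ : N), (ν⁻¹).2, HeightOneSpectrum.ext ?_⟩
  ext x
  rw [hν, Ideal.mem_pointwise_smul_iff_inv_smul_mem]
  rfl

/-- the prime of the layer field `L^N` below `primeAt q L g` -/
noncomputable def primeBelow (g : GalL L) : HeightOneSpectrum (𝓞 (layerField L N)) :=
  (primeAt q L g).under (𝓞 (layerField L N))

theorem primeBelow_asIdeal (g : GalL L) :
    (primeBelow L N q g).asIdeal = (primeAt q L g).asIdeal.under (𝓞 (layerField L N)) := rfl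

instance liesOver_primeBelow (g : GalL L) :
    (primeAt q L g).asIdeal.LiesOver (primeBelow L N q g).asIdeal := ⟨rfl⟩

/-- the only rational prime in `primeBelow q g` is `q` -/
theorem natCast_mem_primeBelow_iff (g : GalL L) {ℓ : ℕ} (hℓ : ℓ.Prime) :
    ((ℓ : 𝓞 (layerField L N))) ∈ (primeBelow L N q g).asIdeal ↔ ℓ = q := by
  rw [primeBelow_asIdeal, Ideal.under_def, Ideal.mem_comap, map_natCast]
  exact natCast_mem_primeAt_iff q L g hℓ

/-- **double coset dictionary for the layer field**: two elements of `Gal(L/ℚ)` cutting out the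
same prime of `L^N` above `q` lie in the same `(range locHom, N)` double coset. -/
theorem exists_of_primeBelow_eq {g g' : GalL L}
    (h : primeBelow L N q g = primeBelow L N q g') :
    ∃ τ : Gq q, ∃ ν ∈ N, g' = locHom q L τ * (g * ν) := by
  have h' : (primeAt q L g).asIdeal.under (𝓞 (layerField L N)) =
      (primeAt q L g').asIdeal.under (𝓞 (layerField L N)) := by
    rw [← primeBelow_asIdeal, ← primeBelow_asIdeal, h]
  obtain ⟨ν, hν, hP⟩ := exists_mem_primeAt_eq L N q h'
  obtain ⟨τ, hτ⟩ := exists_locHom_of_primeAt_eq q L hP.symm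
  exact ⟨τ, ν, hν, hτ⟩

/-- the unit balls of `‖ι_q (g ·)‖` and of the valuation at `primeBelow q g` agree on `L^N` -/
theorem norm_le_one_iff_valuation_layer (g : GalL L) (y : layerField L N) :
    ‖iotaL q L (g (y : L))‖ ≤ 1 ↔ (primeBelow L N q g).valuation (layerField L N) y ≤ 1 := by
  rw [norm_le_one_iff_valuation q L g (y : L)]
  have h := HeightOneSpectrum.valuation_liesOver L (primeBelow L N q g) (primeAt q L g) y
  have hP := (primeAt q L g).isPrime
  have he : (primeBelow L N q g).asIdeal.ramificationIdx' (primeAt q L g).asIdeal ≠ 0 :=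
    Ideal.IsDedekindDomain.ramificationIdx'_ne_zero_of_liesOver (primeAt q L g).asIdeal
      (primeBelow L N q g).ne_bot
  have hy : (y : L) = algebraMap (layerField L N) L y := rfl
  rw [hy, ← h, pow_le_one_iff he]

/-- the `q`-adic norm through `g` on the layer field -/
noncomputable def normAtLayer (g : GalL L) : layerField L N →*₀ ℝ where
  toFun y := ‖iotaL q L (g (y : L))‖
  map_zero' := by simp
  map_one' := by simp
  map_mul' x y := by simp

theorem normAtLayer_apply (g : GalL L) (y : layerField L N) :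
    normAtLayer L N q g y = ‖iotaL q L (g (y : L))‖ := rfl

/-- **exact exponent on the layer field**: at a prime where `L` is unramified. -/
theorem norm_eq_zpow_of_valuation_layer (hunr : IsUnrAt q (locHom q L)) (g : GalL L)
    (x : layerField L N) (n : ℤ)
    (h : (primeBelow L N q g).valuation (layerField L N) x = WithZero.exp (-n)) :
    ‖iotaL q L (g (x : L))‖ = (q : ℝ) ^ (-n) := by
  have := Exponent.norm_eq_zpow_of_valuation (primeBelow L N q g) (normAtLayer L N q g) q
    (Fact.out : q.Prime).one_lt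
    (fun y => (norm_nonneg (iotaL q L (g (y : L))) : 0 ≤ normAtLayer L N q g y))
    (fun y => norm_le_one_iff_valuation_layer L N q g y)
    (by
      rw [normAtLayer_apply]
      have : (((q : layerField L N)) : L) = (q : L) := by simp
      rw [this]
      exact nrm_natCast_q q L (sig L g))
    (fun y hy => exists_norm_eq_zpow q L hunr g (y : L) (by
      intro h0
      apply hy
      exact Subtype.ext h0)) x n h
  exact this

end Prime

section Main

/-- **Relative bridge, fixed `N`.** -/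
theorem exists_fixed_unit_norm_eq (T : Finset Nat.Primes)
    (hT : ∀ n : HeightOneSpectrum (𝓞 (layerField L N)) →₀ ℤ, ∃ x : (layerField L N)ˣ,
      ∀ P : HeightOneSpectrum (𝓞 (layerField L N)),
        (∀ ℓ ∈ T, (((ℓ : ℕ) : 𝓞 (layerField L N))) ∉ P.asIdeal) →
          P.valuation (layerField L N) (x : layerField L N) = WithZero.exp (-(n P)))
    (hunr : ∀ ℓ : Nat.Primes, ℓ ∉ T → IsUnrAt (ℓ : ℕ) (locHom (ℓ : ℕ) L))
    (n : Nat.Primes → GalL L → ℤ) (hfin : {ℓ | n ℓ ≠ 0}.Finite)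
    (hinv : ∀ (ℓ : Nat.Primes) (τ : Gq (ℓ : ℕ)) (g : GalL L),
      n ℓ (locHom (ℓ : ℕ) L τ * g) = n ℓ g)
    (hN : ∀ (ℓ : Nat.Primes) (g : GalL L), ∀ ν ∈ N, n ℓ (g * ν) = n ℓ g) :
    ∃ x : Lˣ, (∀ ν ∈ N, ν (x : L) = x) ∧ ∀ ℓ : Nat.Primes, ℓ ∉ T → ∀ g : GalL L,
      ‖iotaL (ℓ : ℕ) L (g (x : L))‖ = ((ℓ : ℕ) : ℝ) ^ (-(n ℓ g)) := by
  classical
  let _ : Fintype (GalL L) := AlgEquiv.fintype ℚ L
  -- the exponent function on primes of the layer field
  let m : HeightOneSpectrum (𝓞 (layerField L N)) → ℤ := fun P =>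
    if h : ∃ (ℓ : Nat.Primes) (g : GalL L), primeBelow L N (ℓ : ℕ) g = P then
      n h.choose h.choose_spec.choose else 0
  have hm_supp : (Function.support m).Finite := by
    have hsub : Function.support m ⊆
        (fun p : Nat.Primes × GalL L => primeBelow L N (p.1 : ℕ) p.2) ''
          ((hfin.toFinset ×ˢ (Finset.univ : Finset (GalL L)) : Finset (Nat.Primes × GalL L)) :
            Set (Nat.Primes × GalL L)) := by
      intro P hP
      rw [Function.mem_support] at hP
      by_cases h : ∃ (ℓ : Nat.Primes) (g : GalL L), primeBelow L N (ℓ : ℕ) g = P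
      · have hmP : m P = n h.choose h.choose_spec.choose := dif_pos h
        refine ⟨(h.choose, h.choose_spec.choose), ?_, h.choose_spec.choose_spec⟩
        rw [Finset.coe_product, Set.mem_prod]
        refine ⟨?_, by simp⟩
        rw [Finset.mem_coe, Set.Finite.mem_toFinset]
        show n _ ≠ 0
        intro h0
        apply hP
        rw [hmP, h0]
        rfl
      · exact absurd (dif_neg h) hP
    exact (Set.Finite.image _ (Finset.finite_toSet _)).subset hsub
  obtain ⟨x, hx⟩ := hT (Finsupp.ofSupportFinite m hm_supp)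
  have hx0 : ((x : layerField L N) : L) ≠ 0 := by
    intro h0
    exact Units.ne_zero x (Subtype.ext h0)
  refine ⟨Units.mk0 ((x : layerField L N) : L) hx0, ?_, fun ℓ hℓT g => ?_⟩
  · intro ν hν
    exact (mem_layerField_iff L N _).mp (x : layerField L N).2 ν hν
  -- the prime attached to `(ℓ, g)` is not above `T`
  have hPT : ∀ t ∈ T, (((t : ℕ) : 𝓞 (layerField L N))) ∉ (primeBelow L N (ℓ : ℕ) g).asIdeal := by
    intro t ht hmem
    have := (natCast_mem_primeBelow_iff L N (ℓ : ℕ) g t.2).mp hmem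
    have htl : t = ℓ := Subtype.ext this
    exact hℓT (htl ▸ ht)
  have hval := hx (primeBelow L N (ℓ : ℕ) g) hPT
  have hex : ∃ (ℓ' : Nat.Primes) (g' : GalL L),
      primeBelow L N (ℓ' : ℕ) g' = primeBelow L N (ℓ : ℕ) g := ⟨ℓ, g, rfl⟩
  have hmP : m (primeBelow L N (ℓ : ℕ) g) = n ℓ g := by
    obtain ⟨ℓ₁, g₁, hspec, hm1⟩ : ∃ (ℓ₁ : Nat.Primes) (g₁ : GalL L),
        primeBelow L N (ℓ₁ : ℕ) g₁ = primeBelow L N (ℓ : ℕ) g ∧
          m (primeBelow L N (ℓ : ℕ) g) = n ℓ₁ g₁ :=
      ⟨hex.choose, hex.choose_spec.choose, hex.choose_spec.choose_spec, dif_pos hex⟩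
    rw [hm1]
    have hℓ' : ℓ₁ = ℓ := by
      have hmem : (((ℓ₁ : ℕ) : 𝓞 (layerField L N))) ∈ (primeBelow L N (ℓ₁ : ℕ) g₁).asIdeal :=
        (natCast_mem_primeBelow_iff L N (ℓ₁ : ℕ) _ ℓ₁.2).mpr rfl
      rw [hspec] at hmem
      exact Subtype.ext ((natCast_mem_primeBelow_iff L N (ℓ : ℕ) g ℓ₁.2).mp hmem)
    subst hℓ'
    obtain ⟨τ, ν, hν, hτ⟩ := exists_of_primeBelow_eq L N (ℓ₁ : ℕ) hspec
    rw [hτ, hinv, hN _ _ ν hν]
  have hval' : (primeBelow L N (ℓ : ℕ) g).valuation (layerField L N) (x : layerField L N) =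
      WithZero.exp (-(n ℓ g)) := by
    rw [hval]
    show WithZero.exp (-(m (primeBelow L N (ℓ : ℕ) g))) = _
    rw [hmP]
  exact norm_eq_zpow_of_valuation_layer L N (ℓ : ℕ) (hunr ℓ hℓT) g (x : layerField L N) (n ℓ g)
    hval'

/-- **Relative bridge, ONE `T` for all layers.** For every finite `S` there is a finite `T ⊇ S`
such that for every finite `T' ⊇ T` outside which `L` is unramified and EVERY subgroup
`N ≤ Gal(L/ℚ)`: `(Lˣ)^N → (⊕_{ℓ ∉ T'} coind ℤ)^N` is onto (elementwise form). -/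
theorem exists_finset_forall_layer (S : Finset Nat.Primes) :
    ∃ T : Finset Nat.Primes, S ⊆ T ∧ ∀ T' : Finset Nat.Primes, T ⊆ T' →
      (∀ ℓ : Nat.Primes, ℓ ∉ T' → IsUnrAt (ℓ : ℕ) (locHom (ℓ : ℕ) L)) →
      ∀ (N : Subgroup (GalL L)) (n : Nat.Primes → GalL L → ℤ), {ℓ | n ℓ ≠ 0}.Finite →
      (∀ (ℓ : Nat.Primes) (τ : Gq (ℓ : ℕ)) (g : GalL L), n ℓ (locHom (ℓ : ℕ) L τ * g) = n ℓ g) →
      (∀ (ℓ : Nat.Primes) (g : GalL L), ∀ ν ∈ N, n ℓ (g * ν) = n ℓ g) →
      ∃ x : Lˣ, (∀ ν ∈ N, ν (x : L) = x) ∧ ∀ ℓ : Nat.Primes, ℓ ∉ T' → ∀ g : GalL L,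
        ‖iotaL (ℓ : ℕ) L (g (x : L))‖ = ((ℓ : ℕ) : ℝ) ^ (-(n ℓ g)) := by
  classical
  let _ : Fintype (GalL L) := AlgEquiv.fintype ℚ L
  have hfinSub : Finite (Subgroup (GalL L)) := inferInstance
  let _ : Fintype (Subgroup (GalL L)) := Fintype.ofFinite _
  choose Tf hTf using fun N : Subgroup (GalL L) =>
    Class.exists_finset_trivial_class (layerField L N) S
  refine ⟨S ∪ Finset.univ.biUnion Tf, Finset.subset_union_left, ?_⟩
  intro T' hTT' hunr N n hfin hinv hN
  have hTN : Tf N ⊆ T' := fun t ht =>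
    hTT' (Finset.mem_union_right _ (Finset.mem_biUnion.mpr ⟨N, Finset.mem_univ _, ht⟩))
  exact exists_fixed_unit_norm_eq L N T'
    (fun k => Class.forall_superset_trivial_class (layerField L N) (hTf N).2 hTN k)
    hunr n hfin hinv hN

/-- the same on helper73's `Lx L`, `diag` and helper44's `valAdd`: `x` is an `N`-invariant
element of the representation `Lx L` and `valAdd ℓ ((diag ℓ L x) g) = n ℓ g` outside `T'`. -/
theorem exists_finset_forall_layer_diag (S : Finset Nat.Primes) :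
    ∃ T : Finset Nat.Primes, S ⊆ T ∧ ∀ T' : Finset Nat.Primes, T ⊆ T' →
      (∀ ℓ : Nat.Primes, ℓ ∉ T' → IsUnrAt (ℓ : ℕ) (locHom (ℓ : ℕ) L)) →
      ∀ (N : Subgroup (GalL L)) (n : Nat.Primes → GalL L → ℤ), {ℓ | n ℓ ≠ 0}.Finite →
      (∀ (ℓ : Nat.Primes) (τ : Gq (ℓ : ℕ)) (g : GalL L), n ℓ (locHom (ℓ : ℕ) L τ * g) = n ℓ g) →
      (∀ (ℓ : Nat.Primes) (g : GalL L), ∀ ν ∈ N, n ℓ (g * ν) = n ℓ g) →
      ∃ x : Lx L, (∀ ν ∈ N, (Lx L).ρ ν x = x) ∧ ∀ ℓ : Nat.Primes, ℓ ∉ T' → ∀ g : GalL L,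
        valAdd (ℓ : ℕ) (Rep.toAdditive (((diag (ℓ : ℕ) L).hom x).1 g)) = n ℓ g := by
  obtain ⟨T, hST, hT⟩ := exists_finset_forall_layer L S
  refine ⟨T, hST, fun T' hTT' hunr N n hfin hinv hN => ?_⟩
  obtain ⟨x, hxN, hx⟩ := hT T' hTT' hunr N n hfin hinv hN
  refine ⟨Additive.ofMul x, fun ν hν => ?_, fun ℓ hℓ g => ?_⟩
  · apply Additive.toMul.injective
    apply Units.ext
    exact hxN ν hν
  · have h1 := hx ℓ hℓ g
    have hne : iotaL (ℓ : ℕ) L (g (x : L)) ≠ 0 := by
      rw [Ne, map_eq_zero, map_eq_zero]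
      exact Units.ne_zero x
    have h2 : (Rep.toAdditive (((diag (ℓ : ℕ) L).hom (Additive.ofMul x : Lx L)).1 g)) =
        Additive.ofMul (Units.mk0 _ hne) := by
      apply Additive.toMul.injective
      apply Units.ext
      rfl
    rw [h2, valAdd_eq_intCast_iff]
    exact h1

end Main

end Fermat.Agent.S55.FirstIneq16.RelBridge
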