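/-
S55 / 31-FIRST-INEQ (helper16), piece (L4): the ORBIT / STABILISER DICTIONARY between helper1's
`SUnit1.LayerIF.q_layer_sUnits_odd_IF` (Herbrand quotient of the `T`-units of a layer `N ⊴ H`,
expressed through a system `s` of representatives of the `H ⧸ N`-orbits of primes of `L^N` above `T`
and their stabilisers) and helper73's coinduced idele model (double coset representatives
`R ℓ` of `D_ℓ \ Gal(L/ℚ) / H` and the local groups `D_x ⧸ M_x`).

* `Kp L H N := RelBridge.layerField L (N.map H.subtype)`, `hKp` : the `K'`, `hK'` of helper1.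
* `pB L H N q g := RelBridge.primeBelow L (N.map H.subtype) q g`;
  `primeSmul_pB : primeSmul (h N) (pB g) = pB (g h⁻¹)`, `exists_pB_eq`, `pB_locHom_mul`,
  `pB_jE_mul`, `pB_mul_of_mem`.
* `primeStab_pB : primeStab (H ⧸ N) (pB q x) = range (Layer.jx (jE q L) H N x)`,
  `card_primeStab_pB : |primeStab (H ⧸ N) (pB q x)| = |D_x ⧸ M_x|`.
* `Idx L T R`, `sOf`, `sOf_above` (= `hsT`), `sOf_orbits` (= `hs`), `prod_card_primeStab`.
* `q_layer_sUnits_eq` : `q(E_T-layer) * |H ⧸ N| = ∏_{ℓ ∈ T} ∏_{x ∈ R ℓ} |D_x ⧸ M_x|`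
  (the right-hand side is literally the one of helper73's `PairJq.layerPair_JS`).
-/
import Mathlib
import Fermat.Agent.S55.FirstIneq16.RelBridge
import Fermat.Agent.S55.FirstIneq27.Dict
import Fermat.Agent.S55.SUnit1.LayerIF
import Fermat.Agent.S55.Idele73.LayerJq
import Fermat.Agent.S55.IdeleVal44.SIdele

set_option linter.unusedSectionVars false

namespace Fermat.Agent.S55.FirstIneq16.Match

open IsDedekindDomain NumberField
open Fermat.Agent.S55.Idele73.Basic Fermat.Agent.S55.Idele73.Local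
  Fermat.Agent.S55.Idele73.Components Fermat.Agent.S55.Idele73.LayerJq
  Fermat.Agent.S55.Idele73 Fermat.Agent.S55.IdeleVal44
open Fermat.Agent.S55.FirstIneq16 Fermat.Agent.S55.FirstIneq16.Bridge
  Fermat.Agent.S55.FirstIneq16.RelBridge
open Fermat.Agent.S55.SUnit1 Fermat.Agent.S55.SUnit1.Places Fermat.Agent.S55.SUnit1.QSUnits
  Fermat.Agent.S55.SUnit1.LayerIF

variable (L : IntermediateField ℚ Qbar) [FiniteDimensional ℚ L] [Normal ℚ L]
variable (H : Subgroup (GalL L)) (N : Subgroup H) [N.Normal]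

/-- the layer field `L^N` as an intermediate field of `L/ℚ` -/
noncomputable abbrev Kp : IntermediateField ℚ L := layerField L (N.map H.subtype)

theorem hKp (x : L) : x ∈ Kp L H N ↔ ∀ n ∈ N, n • x = x := by
  rw [mem_layerField_iff]
  constructor
  · intro h n hn
    exact h _ (Subgroup.mem_map_of_mem _ hn)
  · rintro h ν ⟨n, hn, rfl⟩
    exact h n hn

section Prime

variable (q : ℕ) [Fact q.Prime]

/-- the prime of the layer field attached to `g` -/
noncomputable abbrev pB (g : GalL L) : HeightOneSpectrum (𝓞 (Kp L H N)) :=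
  primeBelow L (N.map H.subtype) q g

theorem mem_pB_iff (g : GalL L) (y : 𝓞 (Kp L H N)) :
    y ∈ (pB L H N q g).asIdeal ↔ ‖iotaL q L (g ((y : Kp L H N) : L))‖ < 1 := Iff.rfl

theorem primeAt_locHom_mul (τ : Gq q) (g : GalL L) :
    primeAt q L (locHom q L τ * g) = primeAt q L g := by
  have h1 : ∀ g' : GalL L, primeAt q L g' = Fermat.Agent.S55.FirstIneq27.Dict.primeOf q L g' := fun g' =>
    HeightOneSpectrum.ext (by ext x; exact Iff.rfl)
  rw [h1, h1, Fermat.Agent.S55.FirstIneq27.Dict.primeOf_locHom_mul]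

theorem pB_locHom_mul (τ : Gq q) (g : GalL L) :
    pB L H N q (locHom q L τ * g) = pB L H N q g := by
  show (primeAt q L (locHom q L τ * g)).under _ = (primeAt q L g).under _
  rw [primeAt_locHom_mul]

theorem pB_jE_mul (δ : DE q L) (g : GalL L) :
    pB L H N q (jE q L δ * g) = pB L H N q g := by
  obtain ⟨τ, rfl⟩ := resE_surjective q L δ
  rw [jE_resE, pB_locHom_mul]

theorem pB_mul_of_mem (g : GalL L) (n : H) (hn : n ∈ N) :
    pB L H N q (g * (n : GalL L)) = pB L H N q g := by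
  apply HeightOneSpectrum.ext
  ext y
  rw [mem_pB_iff, mem_pB_iff]
  have : (g * (n : GalL L)) ((y : Kp L H N) : L) = g ((y : Kp L H N) : L) := by
    rw [AlgEquiv.mul_apply]
    congr 1
    exact (hKp L H N _).mp (y : Kp L H N).2 n hn
  rw [this]

/-- the action of `H ⧸ N` on the primes of the layer field, in the coset model:
`(h N) • primeBelow g = primeBelow (g h⁻¹)`. -/
theorem primeSmul_pB (h : H) (g : GalL L) :
    letI := layerActionIF N (Kp L H N) (hKp L H N)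
    primeSmul ((h : H) : H ⧸ N) (pB L H N q g) = pB L H N q (g * ((h⁻¹ : H) : GalL L)) := by
  let _ := layerActionIF N (Kp L H N) (hKp L H N)
  apply HeightOneSpectrum.ext
  ext y
  rw [mem_primeSmul, mem_pB_iff, mem_pB_iff, Places.coe_smul]
  rfl

/-- every prime of the layer field above `q` is a `primeBelow g` -/
theorem exists_pB_eq (P : HeightOneSpectrum (𝓞 (Kp L H N)))
    (hP : ((q : ℕ) : 𝓞 (Kp L H N)) ∈ P.asIdeal) : ∃ g : GalL L, pB L H N q g = P := by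
  have hPp := P.isPrime
  have hPm : P.asIdeal.IsMaximal := P.isMaximal
  obtain ⟨Q, hQm, hQ⟩ := Ideal.exists_maximal_ideal_liesOver_of_isIntegral (S := 𝓞 L) P.asIdeal
  have hQ0 : Q ≠ ⊥ := Ideal.ne_bot_of_liesOver_of_ne_bot P.ne_bot Q
  let Q' : HeightOneSpectrum (𝓞 L) := ⟨Q, hQm.isPrime, hQ0⟩
  have hqQ : ((q : ℕ) : 𝓞 L) ∈ Q'.asIdeal := by
    have h1 : algebraMap (𝓞 (Kp L H N)) (𝓞 L) ((q : ℕ) : 𝓞 (Kp L H N)) ∈ Q := by
      rw [← Ideal.mem_comap, ← Ideal.under_def, ← hQ.over]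
      exact hP
    simpa using h1
  obtain ⟨g, hg⟩ := Fermat.Agent.S55.FirstIneq27.Dict.exists_primeOf_eq q L Q' hqQ
  refine ⟨g, HeightOneSpectrum.ext ?_⟩
  have h1 : primeAt q L g = Q' := by
    rw [← hg]
    exact HeightOneSpectrum.ext (by ext x; exact Iff.rfl)
  show (primeAt q L g).asIdeal.under _ = P.asIdeal
  rw [h1]
  exact hQ.over.symm

/-- double coset of a prime: same `primeBelow` up to `H ⧸ N` iff same double coset -/
theorem inDC_of_primeSmul_eq {x x' : GalL L} (h h' : H)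
    (he : letI := layerActionIF N (Kp L H N) (hKp L H N)
      primeSmul ((h : H) : H ⧸ N) (pB L H N q x) = primeSmul ((h' : H) : H ⧸ N) (pB L H N q x')) :
    Mackey.InDC (jE q L) H x x' := by
  rw [primeSmul_pB, primeSmul_pB] at he
  obtain ⟨τ, ν, ⟨n, hn, rfl⟩, hτ⟩ := exists_of_primeBelow_eq L (N.map H.subtype) q he
  refine ⟨resE q L τ, h⁻¹ * n * h', ?_⟩
  rw [jE_resE]
  have : x' = (x' * ((h'⁻¹ : H) : GalL L)) * (h' : GalL L) := by
    rw [mul_assoc, ← Subgroup.coe_mul, inv_mul_cancel, Subgroup.coe_one, mul_one]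
  rw [this, hτ]
  simp only [Subgroup.coe_mul, Subgroup.coe_inv, Subgroup.subtype_apply, mul_assoc]

/-- **the stabiliser of `primeBelow x` in `H ⧸ N` is the image of `D_x ⧸ M_x`** -/
theorem primeStab_pB (x : GalL L) :
    letI := layerActionIF N (Kp L H N) (hKp L H N)
    primeStab (H ⧸ N) (pB L H N q x) = (Layer.jx (jE q L) H N x).range := by
  let _ := layerActionIF N (Kp L H N) (hKp L H N)
  ext σ
  rw [mem_primeStab, MonoidHom.mem_range]
  constructor
  · intro hσ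
    induction σ using QuotientGroup.induction_on with
    | H h =>
      rw [primeSmul_pB] at hσ
      obtain ⟨τ, ν, ⟨n, hn, rfl⟩, hτ⟩ := exists_of_primeBelow_eq L (N.map H.subtype) q hσ
      -- `x = locHom τ * (x h⁻¹ n)`, so `x⁻¹ locHom τ⁻¹ x = h⁻¹ n`
      have hmem : x⁻¹ * jE q L (resE q L τ⁻¹) * x = ((h⁻¹ * n : H) : GalL L) := by
        rw [jE_resE, map_inv]
        have : locHom q L τ = x * (x * ((h⁻¹ : H) : GalL L) * (H.subtype n))⁻¹ := by
          rw [eq_mul_inv_iff_mul_eq]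
          exact hτ.symm
        rw [this]
        simp only [Subgroup.coe_mul, Subgroup.subtype_apply]
        group
      have hD : resE q L τ⁻¹ ∈ Dx q L H x := by
        rw [Mackey.mem_twSub, hmem]
        exact (h⁻¹ * n).2
      refine ⟨((⟨resE q L τ⁻¹, hD⟩ : Dx q L H x) : Dx q L H x ⧸ MxJ q L H N x)⁻¹, ?_⟩
      rw [map_inv, Layer.jx_mk]
      have h2 : Mackey.twHom (jE q L) H x ⟨resE q L τ⁻¹, hD⟩ = h⁻¹ * n := Subtype.ext hmem
      have h3 : ((h⁻¹ * n : H) : H ⧸ N) = ((h⁻¹ : H) : H ⧸ N) :=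
        QuotientGroup.eq.mpr (by simpa using N.inv_mem hn)
      rw [h2, h3, QuotientGroup.mk_inv, inv_inv]
  · rintro ⟨t, rfl⟩
    induction t using QuotientGroup.induction_on with
    | H δ =>
      rw [Layer.jx_mk, primeSmul_pB]
      have : x * (((Mackey.twHom (jE q L) H x δ)⁻¹ : H) : GalL L) = jE q L (δ : DE q L)⁻¹ * x := by
        rw [Subgroup.coe_inv, Mackey.coe_twHom, map_inv]
        group
      rw [this, pB_jE_mul]

theorem card_primeStab_pB (x : GalL L) :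
    letI := layerActionIF N (Kp L H N) (hKp L H N)
    Nat.card (primeStab (H ⧸ N) (pB L H N q x)) = Nat.card (Dx q L H x ⧸ MxJ q L H N x) := by
  rw [primeStab_pB]
  exact Nat.card_congr
    (MonoidHom.ofInjective (Layer.jx_injective (jE q L) H N x)).toEquiv.symm

end Prime

section Global

variable (T : Finset Nat.Primes) (R : InS T → Finset (GalL L))

/-- the index set: pairs (prime `ℓ ∈ T`, double coset representative `x ∈ R ℓ`) -/
abbrev Idx : Type := Σ ℓ : InS T, {x : GalL L // x ∈ R ℓ}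

/-- the primes of the layer field above `T`, one for each `H ⧸ N`-orbit -/
noncomputable def sOf (k : Idx L T R) : HeightOneSpectrum (𝓞 (Kp L H N)) :=
  pB L H N ((k.1.1 : Nat.Primes) : ℕ) (k.2.1 : GalL L)

theorem sOf_above (k : Idx L T R) :
    ∃ ℓ ∈ T, ((ℓ : ℕ) : 𝓞 (Kp L H N)) ∈ (sOf L H N T R k).asIdeal :=
  ⟨k.1.1, k.1.2,
    (natCast_mem_primeBelow_iff L (N.map H.subtype) ((k.1.1 : Nat.Primes) : ℕ) (k.2.1 : GalL L)
      (k.1.1 : Nat.Primes).2).mpr rfl⟩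

theorem sOf_orbits (hR : ∀ ℓ : InS T, Mackey.IsRepr (jE ((ℓ.1 : Nat.Primes) : ℕ) L) H (R ℓ)) :
    letI := layerActionIF N (Kp L H N) (hKp L H N)
    ∀ P : HeightOneSpectrum (𝓞 (Kp L H N)),
      (∃ ℓ ∈ T, ((ℓ : ℕ) : 𝓞 (Kp L H N)) ∈ P.asIdeal) →
      ∃! k : Idx L T R, ∃ σ : H ⧸ N, primeSmul σ (sOf L H N T R k) = P := by
  let _ := layerActionIF N (Kp L H N) (hKp L H N)
  rintro P ⟨ℓ, hℓT, hℓP⟩
  obtain ⟨g, hg⟩ := exists_pB_eq L H N (ℓ : ℕ) P hℓP
  obtain ⟨x, hxR, δ, h, hgx⟩ := (hR ⟨ℓ, hℓT⟩).1 g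
  have hex : primeSmul (((h⁻¹ : H)) : H ⧸ N) (pB L H N (ℓ : ℕ) x) = P := by
    rw [primeSmul_pB, inv_inv, ← hg, hgx, mul_assoc, pB_jE_mul]
  refine ⟨⟨⟨ℓ, hℓT⟩, ⟨x, hxR⟩⟩, ⟨_, hex⟩, ?_⟩
  rintro ⟨⟨ℓ', hℓ'T⟩, ⟨x', hx'R⟩⟩ ⟨σ', hσ'⟩
  induction σ' using QuotientGroup.induction_on with
  | H h' =>
    have hσ'' : primeSmul ((h' : H) : H ⧸ N) (pB L H N (ℓ' : ℕ) x') = P := hσ'
    have hℓℓ' : ℓ' = ℓ := by
      have h1 : ((ℓ' : ℕ) : 𝓞 (Kp L H N)) ∈ P.asIdeal := by
        rw [← hσ'', primeSmul_pB]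
        exact (natCast_mem_primeBelow_iff L (N.map H.subtype) (ℓ' : ℕ) _ ℓ'.2).mpr rfl
      rw [← hg] at h1
      exact Subtype.ext ((natCast_mem_primeBelow_iff L (N.map H.subtype) (ℓ : ℕ) g ℓ'.2).mp h1)
    subst hℓℓ'
    have hdc : Mackey.InDC (jE (ℓ' : ℕ) L) H x x' :=
      inDC_of_primeSmul_eq L H N (ℓ' : ℕ) h⁻¹ h' (hex.trans hσ''.symm)
    have hxx' : x = x' := (hR ⟨ℓ', hℓT⟩).2 x hxR x' hx'R hdc
    subst hxx'
    rfl

theorem prod_card_primeStab :
    letI := layerActionIF N (Kp L H N) (hKp L H N)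
    ∏ k : Idx L T R, (Nat.card (primeStab (H ⧸ N) (sOf L H N T R k)) : ℚ) =
      ((∏ ℓ : InS T, ∏ x : R ℓ,
        Nat.card (Dx ((ℓ.1 : Nat.Primes) : ℕ) L H x ⧸ MxJ ((ℓ.1 : Nat.Primes) : ℕ) L H N x) : ℕ) : ℚ) := by
  push_cast
  rw [Fintype.prod_sigma]
  refine Finset.prod_congr rfl (fun ℓ _ => Finset.prod_congr rfl (fun x _ => ?_))
  congr 1
  exact card_primeStab_pB L H N ((ℓ.1 : Nat.Primes) : ℕ) (x : GalL L)

open Fermat.Agent.S55.Herbrand54 Fermat.Agent.S55.HerbrandCyclic54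
  Fermat.Agent.S55.SUnit1.LayerRho Fermat.Agent.S55.SUnit1.LayerSUnits in
/-- **(L4), final form**: the Herbrand quotient of the `T`-units of the layer `N ⊴ H` of odd cyclic
index, times `|H ⧸ N|`, equals the local product `∏_{ℓ ∈ T} ∏_{x ∈ R ℓ} |D_x ⧸ M_x|`
(= `q` of the layer of `JS L T`, helper73's `PairJq.layerPair_JS`). -/
theorem q_layer_sUnits_eq [Fintype (H ⧸ N)] (hodd : Odd (Nat.card (H ⧸ N))) (g : H ⧸ N)
    (hg : ∀ τ : H ⧸ N, τ ∈ Subgroup.zpowers g)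
    (hR : ∀ ℓ : InS T, Mackey.IsRepr (jE ((ℓ.1 : Nat.Primes) : ℕ) L) H (R ℓ)) :
    (cyclicPair (layerRho (rhoL (L := L) (H := H) T) N) g).IsDefined ∧
      (cyclicPair (layerRho (rhoL (L := L) (H := H) T) N) g).q * Nat.card (H ⧸ N) =
        ((∏ ℓ : InS T, ∏ x : R ℓ,
          Nat.card (Dx ((ℓ.1 : Nat.Primes) : ℕ) L H x ⧸
            MxJ ((ℓ.1 : Nat.Primes) : ℕ) L H N x) : ℕ) : ℚ) := by
  have h := q_layer_sUnits_odd_IF N (Kp L H N) (hKp L H N) T hodd g hg (sOf L H N T R)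
    (sOf_above L H N T R) (sOf_orbits L H N T R hR)
  refine ⟨h.1, ?_⟩
  rw [h.2]
  exact prod_card_primeStab L H N T R

end Global

end Fermat.Agent.S55.FirstIneq16.Match
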