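/-
S55 / 31-FIRST-INEQ (helper16): the relative bridge in helper44's `IS`/`idealMap` shapes.
For every finite `S` there is a finite `T ⊇ S` such that for every finite `T' ⊇ T` outside which
`L` is unramified, and EVERY subgroup `N ≤ Gal(L/ℚ)`, the ideal map
`(Lˣ)^N → (I^{T'}(L))^N` is ONTO.  (`N = ⊥`: `idealMap` itself is onto.)
-/
import Mathlib
import Fermat.Agent.S55.FirstIneq16.RelBridge
import Fermat.Agent.S55.IdeleVal44.Ideal

namespace Fermat.Agent.S55.FirstIneq16.IdealOnto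

open Fermat.Agent.S55.Idele73.Basic Fermat.Agent.S55.IdeleVal44
open Fermat.Agent.S55.FirstIneq16.Bridge Fermat.Agent.S55.FirstIneq16.RelBridge
open scoped DirectSum

variable (L : IntermediateField ℚ Qbar) [FiniteDimensional ℚ L] [Normal ℚ L]

/-- **`Cl(𝓞_{L^N,T'}) = 1` for all layers, in helper44's vocabulary.** -/
theorem exists_finset_idealMap_surjective (S : Finset Nat.Primes) :
    ∃ T : Finset Nat.Primes, S ⊆ T ∧ ∀ T' : Finset Nat.Primes, T ⊆ T' →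
      ∀ (h : UnrOutside L T') (N : Subgroup (GalL L)) (w : IS L T'),
        (∀ ν ∈ N, (IS L T').ρ ν w = w) →
        ∃ x : Lx L, (∀ ν ∈ N, (Lx L).ρ ν x = x) ∧ (idealMap h).hom x = w := by
  classical
  obtain ⟨T, hST, hT⟩ := exists_finset_forall_layer_diag L S
  refine ⟨T, hST, fun T' hTT' h N w hw => ?_⟩
  let n : Nat.Primes → GalL L → ℤ := fun ℓ g =>
    if hℓ : ℓ ∉ T' then (dsRep.toDS _ w ⟨ℓ, hℓ⟩).1 g else 0
  have hn_pos : ∀ (i : OutS T') (g : GalL L), n i.1 g = (dsRep.toDS _ w i).1 g := by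
    intro i g
    show (if hℓ : i.1 ∉ T' then (dsRep.toDS _ w ⟨i.1, hℓ⟩).1 g else 0) = _
    rw [dif_pos i.2]
  have hfin : {ℓ | n ℓ ≠ 0}.Finite := by
    have hsupp : {i : OutS T' | dsRep.toDS _ w i ≠ 0}.Finite :=
      DFinsupp.finite_support (dsRep.toDS _ w)
    refine (hsupp.image (fun i : OutS T' => i.1)).subset ?_
    intro ℓ hℓ
    have hℓ' : n ℓ ≠ 0 := hℓ
    by_cases hℓT : ℓ ∉ T'
    · refine ⟨⟨ℓ, hℓT⟩, ?_, rfl⟩
      show dsRep.toDS _ w ⟨ℓ, hℓT⟩ ≠ 0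
      intro h0
      apply hℓ'
      funext g
      rw [hn_pos ⟨ℓ, hℓT⟩ g, h0]
      rfl
    · exfalso
      apply hℓ'
      funext g
      show (if hℓ : ℓ ∉ T' then (dsRep.toDS _ w ⟨ℓ, hℓ⟩).1 g else 0) = 0
      rw [dif_neg hℓT]
  have hinv : ∀ (ℓ : Nat.Primes) (τ : Gq (ℓ : ℕ)) (g : GalL L),
      n ℓ (locHom (ℓ : ℕ) L τ * g) = n ℓ g := by
    intro ℓ τ g
    by_cases hℓT : ℓ ∉ T'
    · rw [hn_pos ⟨ℓ, hℓT⟩, hn_pos ⟨ℓ, hℓT⟩]
      exact (dsRep.toDS _ w ⟨ℓ, hℓT⟩).2 τ g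
    · show (if hℓ : ℓ ∉ T' then _ else 0) = (if hℓ : ℓ ∉ T' then _ else 0)
      rw [dif_neg hℓT, dif_neg hℓT]
  have hN : ∀ (ℓ : Nat.Primes) (g : GalL L), ∀ ν ∈ N, n ℓ (g * ν) = n ℓ g := by
    intro ℓ g ν hν
    by_cases hℓT : ℓ ∉ T'
    · rw [hn_pos ⟨ℓ, hℓT⟩, hn_pos ⟨ℓ, hℓT⟩]
      have h1 := congrArg (fun y : IS L T' =>
        (dsRep.toDS (fun ℓ : OutS T' => Zq L ℓ.1.1) y ⟨ℓ, hℓT⟩).1 g) (hw ν hν)
      exact h1
    · show (if hℓ : ℓ ∉ T' then _ else 0) = (if hℓ : ℓ ∉ T' then _ else 0)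
      rw [dif_neg hℓT, dif_neg hℓT]
  obtain ⟨x, hxN, hx⟩ := hT T' hTT' (fun ℓ hℓ => h ℓ hℓ) N n hfin hinv hN
  refine ⟨x, hxN, ?_⟩
  apply dsRep.ext
  intro i
  apply Subtype.ext
  funext g
  have h1 := idealMap_coord h x i g
  have h2 := hx i.1 i.2 g
  rw [hn_pos i g] at h2
  have h3 : ((((dsRep.toDS _ ((idealMap h).hom x) i).1 g : ℤ)) : ℝ) =
      (((dsRep.toDS _ w i).1 g : ℤ) : ℝ) := h1.trans h2
  exact Int.cast_injective h3

/-- the case `N = ⊥`: the ideal map of `L` is onto for `T' ⊇ T`. -/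
theorem exists_finset_idealMap_surjective' (S : Finset Nat.Primes) :
    ∃ T : Finset Nat.Primes, S ⊆ T ∧ ∀ T' : Finset Nat.Primes, T ⊆ T' →
      ∀ (h : UnrOutside L T'), Function.Surjective (idealMap h).hom := by
  obtain ⟨T, hST, hT⟩ := exists_finset_idealMap_surjective L S
  refine ⟨T, hST, fun T' hTT' h w => ?_⟩
  obtain ⟨x, -, hx⟩ := hT T' hTT' h ⊥ w (by
    intro ν hν
    rw [Subgroup.mem_bot] at hν
    subst hν
    simp)
  exact ⟨x, hx⟩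

end Fermat.Agent.S55.FirstIneq16.IdealOnto
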