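/-
S55 / 31-FIRST-INEQ (helper16), (L2): the ideal (permutation) factor of the first inequality.
For every layer `N ⊴ H ≤ Gal(L/ℚ)` with `H ⧸ N` cyclic, the Herbrand quotient of
`(H ⧸ N, (Zq L q)^N)` (`Zq L q = ∏_{w ∣ q} ℤ`, place-free) is defined and equals
`∏_{x ∈ D\G/H} |D_x ⧸ M_x|` — the SAME product (same `R`, `Dx`, `MxJ`) as helper73's
`Idele73.LocalIndex.card_H2_layer` for `Jq q L`.  Also the generic conversion
"cards of `H¹`, `H²` of a cyclic layer ⇒ Herbrand pair" and its application to `Jq q L` (L1).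
-/
import Mathlib
import Fermat.Agent.S55.Idele73.LocalIndex
import Fermat.Agent.S55.IdeleVal44.Ideal
import Fermat.Agent.S55.Adapt77.HcycGlue
import Fermat.Agent.S55.HerbrandRep54

set_option autoImplicit false

namespace Fermat.Agent.S55.FirstIneq16.PermFactor

open CategoryTheory
open Fermat.Agent.S55.Idele73 Fermat.Agent.S55.Idele73.Basic Fermat.Agent.S55.Idele73.Local
open Fermat.Agent.S55.Idele73.Components Fermat.Agent.S55.Idele73.LayerJq
open Fermat.Agent.S55.IdeleVal44
open Fermat.Agent.S55.Herbrand54 Fermat.Agent.S55.HerbrandCyclic54 Fermat.Agent.S55.HerbrandHcyc54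
open Fermat.Agent.S55.HerbrandRep54 Fermat.Agent.S55.Adapt77.HcycGlue

/-! ### generic: from the cardinalities of `H¹`, `H²` to the Herbrand pair -/

section Generic

variable {Q : Type} [Group Q] [Fintype Q] (B : Rep.{0, 0, 0} ℤ Q) (g : Q)
  (hg : ∀ x, x ∈ Subgroup.zpowers g)

include hg in
/-- For a finite cyclic group: `|H¹| = 1` and `|H²| = c ≠ 0` give a defined Herbrand quotient
`c`. -/
theorem pair_of_card {c : ℕ} (hc : c ≠ 0) (h1 : Nat.card (groupCohomology B 1) = 1)
    (h2 : Nat.card (groupCohomology B 2) = c) :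
    (cyclicPair (repRhoM B) g).IsDefined ∧ (cyclicPair (repRhoM B) g).q = c := by
  have hcyc : IsCyclic Q := ⟨g, hg⟩
  let _ : CommGroup Q := IsCyclic.commGroup
  have hfin1 : Finite (groupCohomology B 1) := Nat.finite_of_card_ne_zero (by rw [h1]; exact one_ne_zero)
  have hfin2 : Finite (groupCohomology B 2) := Nat.finite_of_card_ne_zero (by rw [h2]; exact hc)
  refine ⟨?_, ?_⟩
  · exact (isDefined_iff_finite_H1_H2 (k := ℤ) (G := Q) B g hg).mpr ⟨hfin2, hfin1⟩
  · have := q_eq_card_H2_div_card_H1 (k := ℤ) (G := Q) B g hg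
    rw [h1, h2] at this
    rw [repRhoM_eq_repRho, this]
    simp

end Generic

/-! ### the trivial module `ℤ` over a finite cyclic group -/

section Trivial

variable {Q : Type} [Group Q] [Fintype Q] (B : Rep.{0, 0, 0} ℤ Q)
  (htriv : ∀ (τ : Q) (x : B.V), B.ρ τ x = x) (e : B.V ≃+ ℤ)

include htriv e in
theorem card_H1_of_trivial_int [IsCyclic Q] : Nat.card (groupCohomology B 1) = 1 := by
  obtain ⟨g, hg⟩ := (inferInstance : IsCyclic Q).exists_generator
  let _ : CommGroup Q := IsCyclic.commGroup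
  rw [card_H1 (k := ℤ) (G := Q) B g hg]
  have := subsingleton_H1_of_trivial_int (repRho B) g (fun τ x => htriv τ x) e
  exact Nat.card_unique

include htriv e in
theorem card_H2_of_trivial_int [IsCyclic Q] : Nat.card (groupCohomology B 2) = Nat.card Q := by
  obtain ⟨g, hg⟩ := (inferInstance : IsCyclic Q).exists_generator
  let _ : CommGroup Q := IsCyclic.commGroup
  rw [card_H2 (k := ℤ) (G := Q) B g hg, Nat.card_eq_fintype_card (α := Q)]
  exact card_H0_of_trivial_int (repRho B) g (fun τ x => htriv τ x) e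

end Trivial

/-! ### the layers of `Zq L q` -/

section Zq

variable (q : ℕ) [Fact q.Prime] (L : IntermediateField ℚ Qbar) [Normal ℚ L]

/-- `ℤ` with trivial action of the finite decomposition group `Gal(E/ℚ_q)` -/
noncomputable abbrev ZE : Rep.{0} ℤ (DE q L) := Rep.trivial ℤ (DE q L) ℤ

/-- `Zq L q ≅ Coind_{Gal(E/ℚ_q)}^{Gal(L/ℚ)} ℤ`. -/
noncomputable def ZqIso : Rep.coind (jE q L) (ZE q L) ≅ Zq L q :=
  CoindSurj.coindCompIso (resE q L) (jE q L) (Rep.trivial ℤ (Gq q) ℤ) (ZE q L) LinearMap.id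
      (fun _ _ => rfl) (resE_surjective q L) Function.injective_id (fun a _ => ⟨a, rfl⟩) ≪≫
    eqToIso (congrArg (fun φ => Rep.coind φ (Rep.trivial ℤ (Gq q) ℤ)) (jE_comp_resE q L))

variable (H : Subgroup (GalL L)) (N : Subgroup H) [N.Normal] (x : GalL L)

/-- `(Res_H Zq)^N ≅ (Res_H Coind_{jE} ℤ)^N`. -/
noncomputable def invZqIso :
    (Mackey.resCoind (jE q L) (ZE q L) H).quotientToInvariants N ≅
      (Rep.res H.subtype (Zq L q)).quotientToInvariants N :=
  (Rep.quotientToInvariantsFunctor.{0} ℤ N).mapIso ((Rep.resFunctor H.subtype).mapIso (ZqIso q L))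

/-- the local layer `(D_x ⧸ M_x, ℤ)` -/
noncomputable abbrev locLayerZ : Rep.{0} ℤ (Dx q L H x ⧸ MxJ q L H N x) :=
  Layer.Bx (jE q L) (ZE q L) H N x

theorem locLayerZ_trivial (τ : Dx q L H x ⧸ MxJ q L H N x) (a : (locLayerZ q L H N x).V) :
    (locLayerZ q L H N x).ρ τ a = a := by
  induction τ using QuotientGroup.induction_on with
  | H τ => exact Subtype.ext rfl

/-- the underlying group of the local layer is `ℤ` -/
noncomputable def locLayerZEquiv : (locLayerZ q L H N x).V ≃+ ℤ where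
  toFun a := a.1
  invFun n := ⟨n, fun _ => rfl⟩
  left_inv a := Subtype.ext rfl
  right_inv n := rfl
  map_add' a b := rfl

variable [FiniteDimensional ℚ L]

/-- cardinality form of helper73's layer decomposition for `Zq`. -/
theorem card_Hn_layer_Zq (n : ℕ) {R : Finset (GalL L)} (hR : Mackey.IsRepr (jE q L) H R) :
    Nat.card (groupCohomology ((Rep.res H.subtype (Zq L q)).quotientToInvariants N) n) =
      ∏ x : R, Nat.card (groupCohomology (locLayerZ q L H N (x : GalL L)) n) := by
  rw [← Layer.card_layer (jE q L) (ZE q L) H N n hR]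
  exact Nat.card_congr
    ((groupCohomology.functor ℤ (H ⧸ N) n).mapIso (invZqIso q L H N).symm).toLinearEquiv.toEquiv

/-- **`|H¹(H/N, (Zq)^N)| = 1`** for a cyclic layer. -/
theorem card_H1_layer_Zq [IsCyclic (H ⧸ N)] :
    Nat.card (groupCohomology ((Rep.res H.subtype (Zq L q)).quotientToInvariants N) 1) = 1 := by
  classical
  obtain ⟨R, hR⟩ := Mackey.exists_isRepr (jE q L) H
  rw [card_Hn_layer_Zq q L H N 1 hR]
  apply Finset.prod_eq_one
  intro x _
  have := LocalG.isCyclic_quot q L H N (x : GalL L)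
  let _ : Fintype (Dx q L H (x : GalL L) ⧸ MxJ q L H N (x : GalL L)) := Fintype.ofFinite _
  exact card_H1_of_trivial_int (locLayerZ q L H N (x : GalL L))
    (locLayerZ_trivial q L H N (x : GalL L)) (locLayerZEquiv q L H N (x : GalL L))

/-- **`|H²(H/N, (Zq)^N)| = ∏_{x ∈ D\G/H} |D_x ⧸ M_x|`** for a cyclic layer: the same product as
`Idele73.LocalIndex.card_H2_layer`. -/
theorem card_H2_layer_Zq [IsCyclic (H ⧸ N)] {R : Finset (GalL L)}
    (hR : Mackey.IsRepr (jE q L) H R) :
    Nat.card (groupCohomology ((Rep.res H.subtype (Zq L q)).quotientToInvariants N) 2) =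
      ∏ x : R, Nat.card (Dx q L H x ⧸ MxJ q L H N x) := by
  classical
  rw [card_Hn_layer_Zq q L H N 2 hR]
  apply Finset.prod_congr rfl
  intro x _
  have := LocalG.isCyclic_quot q L H N (x : GalL L)
  let _ : Fintype (Dx q L H (x : GalL L) ⧸ MxJ q L H N (x : GalL L)) := Fintype.ofFinite _
  exact card_H2_of_trivial_int (locLayerZ q L H N (x : GalL L))
    (locLayerZ_trivial q L H N (x : GalL L)) (locLayerZEquiv q L H N (x : GalL L))

theorem prod_card_quot_ne_zero {R : Finset (GalL L)} :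
    (∏ x : R, Nat.card (Dx q L H x ⧸ MxJ q L H N x)) ≠ 0 := by
  rw [Finset.prod_ne_zero_iff]
  intro x _
  exact Nat.card_pos.ne'

variable [Fintype (H ⧸ N)] (g : H ⧸ N) (hg : ∀ y, y ∈ Subgroup.zpowers g)

include hg in
/-- **(L2)** the Herbrand pair of the layer `(H ⧸ N, (Zq L q)^N)`. -/
theorem layerPair_Zq {R : Finset (GalL L)} (hR : Mackey.IsRepr (jE q L) H R) :
    (layerPair (Zq L q) H N g).IsDefined ∧
      (layerPair (Zq L q) H N g).q = ((∏ x : R, Nat.card (Dx q L H x ⧸ MxJ q L H N x) : ℕ) : ℚ) := by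
  have hcyc : IsCyclic (H ⧸ N) := ⟨g, hg⟩
  exact pair_of_card (layer (Zq L q) H N) g hg (prod_card_quot_ne_zero q L H N)
    (card_H1_layer_Zq q L H N) (card_H2_layer_Zq q L H N hR)

include hg in
/-- **(L1)** the Herbrand pair of the layer `(H ⧸ N, (Jq q L)^N)` (helper73's
`LocalIndex.card_H2_layer` + `LayerJq.isZero_H1_layer` in Pair vocabulary). -/
theorem layerPair_Jq {R : Finset (GalL L)} (hR : Mackey.IsRepr (jE q L) H R) :
    (layerPair (Jq q L) H N g).IsDefined ∧
      (layerPair (Jq q L) H N g).q = ((∏ x : R, Nat.card (Dx q L H x ⧸ MxJ q L H N x) : ℕ) : ℚ) := by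
  have hcyc : IsCyclic (H ⧸ N) := ⟨g, hg⟩
  have h1 : Nat.card (groupCohomology (layer (Jq q L) H N) 1) = 1 := by
    have hz := isZero_H1_layer q L H N
    have : Subsingleton (groupCohomology ((Rep.res H.subtype (Jq q L)).quotientToInvariants N) 1) :=
      ModuleCat.subsingleton_of_isZero hz
    exact Nat.card_unique
  exact pair_of_card (layer (Jq q L) H N) g hg (prod_card_quot_ne_zero q L H N) h1
    (LocalIndex.card_H2_layer q L H N hR)

end Zq

end Fermat.Agent.S55.FirstIneq16.PermFactor
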