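/-
S55 / 31-FIRST-INEQ (helper16): compile-level SEAM between
* (L3) helper1's `heIso : Pair.Iso (kerPair (layerHom (idealMap hT) H N g))
    (cyclicPair (layerRho (rhoL T) N) g)` (taken here as a hypothesis `I`),
* (L4) `FirstIneq16.Match.q_layer_sUnits_eq`,
* (L1) helper73's `PairJq.layerPair_JS`,
giving the two inputs `hE`, `hrel` of helper27's `FirstIneq27.Layer.layer_first_ineq`
(for `A = JS L T`; for `A = prodRep (JS L S) IT` use `hrel_of_iso'`, which has the product on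
the right-hand side).
-/
import Mathlib
import Fermat.Agent.S55.FirstIneq16.Match
import Fermat.Agent.S55.FirstIneq27.Layer
import Fermat.Agent.S55.Idele73.PairJq
import Fermat.Agent.S55.Idele73.PairProd
import Fermat.Agent.S55.IdeleVal44.Ideal

set_option linter.unusedSectionVars false

namespace Fermat.Agent.S55.FirstIneq16.Seam

open Fermat.Agent.S55.Idele73.Basic Fermat.Agent.S55.Idele73.Local
  Fermat.Agent.S55.Idele73.Components Fermat.Agent.S55.Idele73.LayerJq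
  Fermat.Agent.S55.Idele73 Fermat.Agent.S55.IdeleVal44
open Fermat.Agent.S55.Herbrand54 Fermat.Agent.S55.HerbrandCyclic54
  Fermat.Agent.S55.SUnit1.HomSES Fermat.Agent.S55.Adapt77.HcycGlue
  Fermat.Agent.S55.SUnit1.LayerRho Fermat.Agent.S55.SUnit1.LayerSUnits
  Fermat.Agent.S55.FirstIneq27.Layer

variable (L : IntermediateField ℚ Qbar) [FiniteDimensional ℚ L] [Normal ℚ L]
variable (H : Subgroup (GalL L)) (N : Subgroup H) [N.Normal] [Fintype (H ⧸ N)]
variable (T : Finset Nat.Primes) (R : InS T → Finset (GalL L))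

/-- `hE` and the numerical relation, from the `hE`-iso (L3) and the matching (L4). -/
theorem hE_of_iso {Y : Type} [AddCommGroup Y] {P : Pair Y} (g : H ⧸ N)
    (hodd : Odd (Nat.card (H ⧸ N))) (hg : ∀ τ : H ⧸ N, τ ∈ Subgroup.zpowers g)
    (hR : ∀ ℓ : InS T, Mackey.IsRepr (jE ((ℓ.1 : Nat.Primes) : ℕ) L) H (R ℓ))
    (I : Pair.Iso P (cyclicPair (layerRho (rhoL (L := L) (H := H) T) N) g)) :
    P.IsDefined ∧ P.q * Nat.card (H ⧸ N) =
      ((∏ ℓ : InS T, ∏ x : R ℓ,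
        Nat.card (Dx ((ℓ.1 : Nat.Primes) : ℕ) L H x ⧸
          MxJ ((ℓ.1 : Nat.Primes) : ℕ) L H N x) : ℕ) : ℚ) := by
  obtain ⟨h1, h2⟩ := Match.q_layer_sUnits_eq L H N T R hodd g hg hR
  exact ⟨I.isDefined_iff.mpr h1, by rw [I.q_eq]; exact h2⟩

/-- **`hrel` for `A = JS L T`**: `q(JS-layer) = |H ⧸ N| * q(P)` for any pair `P` isomorphic to
helper1's `T`-unit layer pair. -/
theorem hrel_of_iso {Y : Type} [AddCommGroup Y] {P : Pair Y} (g : H ⧸ N)
    (hodd : Odd (Nat.card (H ⧸ N))) (hg : ∀ τ : H ⧸ N, τ ∈ Subgroup.zpowers g)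
    (I : Pair.Iso P (cyclicPair (layerRho (rhoL (L := L) (H := H) T) N) g)) :
    P.IsDefined ∧ (layerPair (JS L T) H N g).IsDefined ∧
      (layerPair (JS L T) H N g).q = (Nat.card (H ⧸ N) : ℚ) * P.q := by
  classical
  choose R hR using fun ℓ : InS T => Mackey.exists_isRepr (jE ((ℓ.1 : Nat.Primes) : ℕ) L) H
  obtain ⟨h1, h2⟩ := hE_of_iso L H N T R g hodd hg hR I
  obtain ⟨h3, h4⟩ := PairJq.layerPair_JS L H N T g hg R hR
  refine ⟨h1, h3, ?_⟩
  rw [h4, mul_comm]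
  exact h2.symm

/-- splitting a product over `T` into the part over `S ⊆ T` and the part over `T \ S` -/
theorem prod_split {S T : Finset Nat.Primes} (hST : S ⊆ T) (F : Nat.Primes → ℕ) :
    (∏ q : InS S, F q.1) * (∏ i : {ℓ : Nat.Primes // ℓ ∈ T \ S}, F i.1) = ∏ ℓ : InS T, F ℓ.1 := by
  have h1 : ∏ q : InS S, F q.1 = ∏ q ∈ S, F q := Finset.prod_coe_sort S F
  have h2 : ∏ i : {ℓ : Nat.Primes // ℓ ∈ T \ S}, F i.1 = ∏ q ∈ T \ S, F q :=
    Finset.prod_coe_sort (T \ S) F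
  have h3 : ∏ ℓ : InS T, F ℓ.1 = ∏ q ∈ T, F q := Finset.prod_coe_sort T F
  rw [h1, h2, h3, mul_comm]
  exact Finset.prod_sdiff hST

attribute [local instance] Fermat.Agent.S55.IdeleVal44.factPrimes44 in
/-- **`hrel` for `A = prodRep (JS L S) IT`**, `IT = ⨁_{ℓ ∈ T \ S} Zq L ℓ`, `S ⊆ T`:
`q(A-layer) = |H ⧸ N| * q(P)` for any pair `P` isomorphic to helper1's `T`-unit layer pair. -/
theorem hrel_of_iso' {S : Finset Nat.Primes} (hST : S ⊆ T) {Y : Type} [AddCommGroup Y]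
    {P : Pair Y} (g : H ⧸ N)
    (hodd : Odd (Nat.card (H ⧸ N))) (hg : ∀ τ : H ⧸ N, τ ∈ Subgroup.zpowers g)
    (I : Pair.Iso P (cyclicPair (layerRho (rhoL (L := L) (H := H) T) N) g)) :
    P.IsDefined ∧
      (layerPair (prodRep (JS L S)
        (dsRep (fun i : {ℓ : Nat.Primes // ℓ ∈ T \ S} => Zq L ((i.1 : Nat.Primes) : ℕ)))) H N g).IsDefined ∧
      (layerPair (prodRep (JS L S)
        (dsRep (fun i : {ℓ : Nat.Primes // ℓ ∈ T \ S} => Zq L ((i.1 : Nat.Primes) : ℕ)))) H N g).q =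
        (Nat.card (H ⧸ N) : ℚ) * P.q := by
  classical
  choose Rall hRall using fun ℓ : Nat.Primes => Mackey.exists_isRepr (jE (ℓ : ℕ) L) H
  obtain ⟨h1, h2⟩ := hE_of_iso L H N T (fun ℓ => Rall ℓ.1) g hodd hg (fun ℓ => hRall ℓ.1) I
  obtain ⟨h3, h4⟩ := PairProd.layerPair_JS_dsZq L H N
    (fun i : {ℓ : Nat.Primes // ℓ ∈ T \ S} => ((i.1 : Nat.Primes) : ℕ)) S g hg
    (fun q => Rall q.1) (fun q => hRall q.1) (fun i => Rall i.1) (fun i => hRall i.1)
  refine ⟨h1, h3, ?_⟩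
  rw [h4, mul_comm (Nat.card (H ⧸ N) : ℚ), h2]
  congr 1
  exact prod_split hST (fun ℓ => ∏ x : Rall ℓ,
    Nat.card (Dx (ℓ : ℕ) L H x ⧸ MxJ (ℓ : ℕ) L H N x))

end Fermat.Agent.S55.FirstIneq16.Seam
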